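import Fermat.Agent.S12.H39.Glue

set_option autoImplicit false

noncomputable section

namespace Fermat.Agent.S12

open WeierstrassCurve WeierstrassCurve.Affine WeierstrassCurve.Affine.Point Fermat.Agent.S05 Fermat.Agent.S13

theorem H39_ident (P : FreyPackage) (Q : Pt P) (hQ : addOrderOf Q = P.p) :
    ((P.a : Kb) ^ P.p / 4 - -((P.b : Kb) ^ P.p / 4)) ^ P.p * Pi P Q 0 ^ 2 +
      (-((P.b : Kb) ^ P.p / 4) - 0) ^ P.p * Pi P Q ((P.a : Kb) ^ P.p / 4) ^ 2 +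
      (0 - (P.a : Kb) ^ P.p / 4) ^ P.p * Pi P Q (-((P.b : Kb) ^ P.p / 4)) ^ 2 = 0 := by
  have h := frey_ident P Q hQ
  have hFLT : (P.a : Kb) ^ P.p + (P.b : Kb) ^ P.p = (P.c : Kb) ^ P.p := by exact_mod_cast P.hFLT
  have hodd : Odd P.p := P.pp.odd_of_ne_two (by have := P.hp5; omega)
  have e0 : KK (P.freyCurve⁄Kb) P.p Q 0 = Pi P Q 0 := rfl
  have e1 : KK (P.freyCurve⁄Kb) P.p Q ((P.a : Kb) ^ P.p / 4) = Pi P Q ((P.a : Kb) ^ P.p / 4) := rfl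
  have e2 : KK (P.freyCurve⁄Kb) P.p Q (-((P.b : Kb) ^ P.p) / 4) =
      Pi P Q (-((P.b : Kb) ^ P.p / 4)) := by
    rw [neg_div]; rfl
  rw [e0, e1, e2] at h
  have c1 : ((P.a : Kb) ^ P.p / 4 - -((P.b : Kb) ^ P.p / 4)) ^ P.p =
      ((P.c : Kb) ^ P.p) ^ P.p / 4 ^ P.p := by
    rw [← hFLT, ← div_pow]; congr 1; ring
  have c2 : (-((P.b : Kb) ^ P.p / 4) - 0) ^ P.p = -(((P.b : Kb) ^ P.p) ^ P.p / 4 ^ P.p) := by
    rw [sub_zero, hodd.neg_pow, div_pow]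
  have c3 : (0 - (P.a : Kb) ^ P.p / 4) ^ P.p = -(((P.a : Kb) ^ P.p) ^ P.p / 4 ^ P.p) := by
    rw [zero_sub, hodd.neg_pow, div_pow]
  rw [c1, c2, c3]
  have h4 : ((4 : Kb) ^ P.p) ≠ 0 := pow_ne_zero _ (by norm_num)
  field_simp
  linear_combination h

theorem H39_final (P : FreyPackage) (hp : 17 ≤ P.p) :
    ¬ HasGaloisStableCofixedLine (K := AlgebraicClosure ℚ) ℚ P.freyCurve P.p := by
  intro h
  obtain ⟨Q, L⟩ := exists_lineData P h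
  have : Fact P.p.Prime := ⟨P.pp⟩
  have hQ : addOrderOf Q = P.p := addOrderOf_eq_prime L.tor L.ne
  have hnd : ∀ k ∈ Finset.Ico 1 P.p, ¬ P.p ∣ k := fun k hk hd => by
    rw [Finset.mem_Ico] at hk
    have := Nat.le_of_dvd (by omega) hd
    omega
  refine end_of P L.ne L.tor L.stab ?_ ?_ (H39_ident P Q hQ)
  · intro ℓ hℓ hℓp
    obtain ⟨A, hA⟩ := Fermat.Agent.Lib.Frobenius.exists_liesOverPrime (K := Kb) ℓ hℓ
    exact ⟨A, hA, fun k hk => H39_good_all P hp L hℓ hℓp A hA k (hnd k hk)⟩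
  · obtain ⟨A, hA⟩ := Fermat.Agent.Lib.Frobenius.exists_liesOverPrime (K := Kb) P.p P.pp
    exact ⟨A, hA, fun k hk => L.atp A hA k (hnd k hk)⟩

end Fermat.Agent.S12
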