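import Fermat.Agent.S12.Descent
import Fermat.Agent.S12.Frey.Local
import Fermat.Agent.S12.Frey.Line
import Fermat.Agent.S12.Frey.Int
import Fermat.Agent.S12.End
import Fermat.Agent.S12.IdentFrey
import Fermat.Agent.S15.Mod.Loc.Good

set_option autoImplicit false

noncomputable section

namespace Fermat.Agent.S12

open WeierstrassCurve WeierstrassCurve.Affine Fermat.Agent.S05 Fermat.Agent.S13

/-- (D) for a curve over `ℚ` presented as `E = W.map _`, in terms of `ps`. -/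
theorem H39_descent {p : ℕ} (hp : p.Prime) (hp' : p ∉ ({2, 3, 5, 7, 13} : Finset ℕ))
    (W : WeierstrassCurve ℤ) (hΔ : W.Δ ≠ 0) (E : WeierstrassCurve ℚ)
    (hE : W.map (Int.castRingHom ℚ) = E)
    (Q : (E⁄Kb).Point) (hQ : addOrderOf Q = p)
    (hstab : ∀ σ : GalQ, ∃ k : ℕ, σ • Q = k • Q)
    {q₁ q₂ : ℕ} (hq₁₂ : q₁ ≠ q₂)
    (hq₁ : q₁.Prime) (hq₁p : q₁ ≠ p) (hq₁Δ : (q₁ : ℤ) ∣ W.Δ) (hq₁c : ¬ (q₁ : ℤ) ∣ W.c₄)
    (A₁ : ValuationSubring Kb) (hA₁ : A₁.LiesOverPrime q₁)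
    (hz₁ : A₁.valuation (ps Q) = 1)
    (hq₂ : q₂.Prime) (hq₂p : q₂ ≠ p) (hq₂Δ : (q₂ : ℤ) ∣ W.Δ) (hq₂c : ¬ (q₂ : ℤ) ∣ W.c₄)
    (A₂ : ValuationSubring Kb) (hA₂ : A₂.LiesOverPrime q₂)
    (hz₂ : A₂.valuation (ps Q) = 1)
    {ℓ' : ℕ} (hℓ' : ℓ'.Prime) (hℓ'p : ℓ' ≠ p) (hbig : p + 1 ≤ 2 * ℓ') (hℓ'Δ : (ℓ' : ℤ) ∣ W.Δ)
    (hℓ'c : ¬ (ℓ' : ℤ) ∣ W.c₄)
    (A' : ValuationSubring Kb) (hA' : A'.LiesOverPrime ℓ') :
    A'.valuation (ps Q) = 1 := by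
  subst hE
  have hp2 : p ≠ 2 := by
    rintro rfl
    simp at hp'
  exact (S15.Mod.Loc.inZeroComponentAt_iff_valuation_ps hp hp2 hQ hℓ' hℓ'p A' hA').1
    (inZero_of_stable hp hp' W hΔ Q hQ hstab hq₁₂ hq₁ hq₁p hq₁Δ hq₁c A₁ hA₁
      (S15.Mod.Loc.inZeroComponentAt_of_valuation_ps A₁ hz₁)
      hq₂ hq₂p hq₂Δ hq₂c A₂ hA₂ (S15.Mod.Loc.inZeroComponentAt_of_valuation_ps A₂ hz₂)
      hℓ' hℓ'p hbig hℓ'Δ hℓ'c A' hA')

theorem H39_small (P : FreyPackage) (hp : 17 ≤ P.p) {Q : Pt P} (L : LineData P Q) {ℓ : ℕ}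
    (hℓ : ℓ.Prime) (hℓ5 : ℓ ≤ 5) (A : ValuationSubring Kb) (hA : A.LiesOverPrime ℓ) :
    (ℓ : ℤ) ∣ P.a * P.b * P.c ∧ GoodAt P Q A := by
  have hℓp : ℓ ≠ P.p := by omega
  obtain ⟨h1, h2⟩ := frey_local P L hℓ hℓp A hA
  refine ⟨?_, ?_⟩
  · by_contra h
    have := h1 h
    omega
  · rcases h2 with h | ⟨-, h, -⟩
    · exact h
    · omega

theorem H39_good_all (P : FreyPackage) (hp : 17 ≤ P.p) {Q : Pt P} (L : LineData P Q) {ℓ : ℕ}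
    (hℓ : ℓ.Prime) (hℓp : ℓ ≠ P.p) (A : ValuationSubring Kb) (hA : A.LiesOverPrime ℓ) :
    GoodAt P Q A := by
  rcases (frey_local P L hℓ hℓp A hA).2 with h | ⟨hdvd, hbig, hbad⟩
  · exact h
  · exfalso
    obtain ⟨A₃, hA₃⟩ := Fermat.Agent.Lib.Frobenius.exists_liesOverPrime (K := Kb) 3 Nat.prime_three
    obtain ⟨A₅, hA₅⟩ := Fermat.Agent.Lib.Frobenius.exists_liesOverPrime (K := Kb) 5 Nat.prime_five
    obtain ⟨h3, g3⟩ := H39_small P hp L Nat.prime_three (by norm_num) A₃ hA₃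
    obtain ⟨h5, g5⟩ := H39_small P hp L Nat.prime_five (by norm_num) A₅ hA₅
    have h1p : ¬ P.p ∣ 1 := fun h => by
      have := Nat.le_of_dvd one_pos h
      omega
    have : Fact P.p.Prime := ⟨P.pp⟩
    have hQ : addOrderOf Q = P.p := addOrderOf_eq_prime L.tor L.ne
    have hp' : P.p ∉ ({2, 3, 5, 7, 13} : Finset ℕ) := by
      simp only [Finset.mem_insert, Finset.mem_singleton]
      omega
    have e3 := g3 1 h1p
    have e5 := g5 1 h1p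
    have eb := hbad 1 h1p
    rw [one_smul] at e3 e5 eb
    have := H39_descent P.pp hp' P.freyCurveInt (freyInt_Δ_ne_zero P) P.freyCurve (freyInt_map P)
      Q hQ L.stab (q₁ := 3) (q₂ := 5) (by norm_num)
      Nat.prime_three (by omega) (freyInt_dvd_Δ P Nat.prime_three h3)
      (freyInt_not_dvd_c₄ P Nat.prime_three h3) A₃ hA₃ e3
      Nat.prime_five (by omega) (freyInt_dvd_Δ P Nat.prime_five h5)
      (freyInt_not_dvd_c₄ P Nat.prime_five h5) A₅ hA₅ e5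
      hℓ hℓp hbig (freyInt_dvd_Δ P hℓ hdvd) (freyInt_not_dvd_c₄ P hℓ hdvd) A hA
    rw [ValuationSubring.mem_nonunits_iff, this] at eb
    exact lt_irrefl _ eb

end Fermat.Agent.S12
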